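import Mathlib
import Fermat.Agent.LT.A2.H753.RegSpec

/-!
# Row LT, tower A2, sub-leaf A2.03.1.3.6 `H753.ArchBoundC` (helper848)

OFF-MAIN.  Imports: Mathlib and the byte-identical copy of `LT/A2/H753/RegSpec.lean`
(sha256 1258ecf1) with its closure (`LT/A2/H467/WeilExSpec.lean` 966c0978, ...).

The entries of `infMat u p.1`, `infMat u p.2` and of their inverses are bounded on a compact set
of pairs (`(infMat u g)⁻¹ = infMat u g⁻¹`); `CpxAt.decay` gives `A_u`, `δ_u`;
`A = ∏_u max A_u 0`, `δ ≤ δ_u` for all `u`.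
-/

set_option autoImplicit false

open IsDedekindDomain NumberField AutomorphicForm MeasureTheory
open scoped MatrixGroups Topology

noncomputable section

namespace Fermat.Agent.LT.A2.H848

open Fermat.Agent.LT.H130 Fermat.Agent.LT.H556 Fermat.Agent.LT.A2 Fermat.Agent.LT.A2.WX467
open Fermat.Agent.LT.A2.H753

variable {K : Type} [Field K] [NumberField K]

/-- The component at the infinite place `u`, a ring homomorphism. -/
def infHom848 (u : InfinitePlace K) : A0.Adl K →+* u.Completion :=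
  (Pi.evalRingHom (fun w : InfinitePlace K => w.Completion) u).comp
    (RingHom.fst (InfiniteAdeleRing K) (FiniteAdeleRing (𝓞 K) K))

theorem infMat_eq848 (u : InfinitePlace K) (g : A0.G K) :
    infMat u g = (infHom848 u).mapMatrix (g : Matrix (Fin 2) (Fin 2) (A0.Adl K)) := by
  ext i j
  rfl

theorem infMat_mul848 (u : InfinitePlace K) (g h : A0.G K) :
    infMat u (g * h) = infMat u g * infMat u h := by
  rw [infMat_eq848, infMat_eq848, infMat_eq848, Units.val_mul, map_mul]

theorem infMat_one848 (u : InfinitePlace K) : infMat u (1 : A0.G K) = 1 := by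
  rw [infMat_eq848, Units.val_one, map_one]

/-- `(infMat u g)⁻¹ = infMat u g⁻¹`. -/
theorem infMat_inv848 (u : InfinitePlace K) (g : A0.G K) :
    (infMat u g)⁻¹ = infMat u g⁻¹ := by
  apply Matrix.inv_eq_right_inv
  rw [← infMat_mul848, mul_inv_cancel, infMat_one848]

/-- The entries of `infMat u g` are continuous in `g`. -/
theorem continuous_infMat848 (u : InfinitePlace K) (i j : Fin 2) :
    Continuous fun g : A0.G K => infMat u g i j := by
  have h1 : Continuous fun g : A0.G K => (g : Matrix (Fin 2) (Fin 2) (A0.Adl K)) :=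
    Units.continuous_val
  have h2 : Continuous fun g : A0.G K => (g : Matrix (Fin 2) (Fin 2) (A0.Adl K)) i j :=
    (continuous_apply j).comp ((continuous_apply i).comp h1)
  have h3 : Continuous fun x : A0.Adl K => x.1 u :=
    (continuous_apply u).comp continuous_fst
  exact h3.comp h2

/-- A positive lower bound of finitely many positive numbers. -/
theorem exists_pos_le848 {ι : Type} [Fintype ι] (f : ι → ℝ) (hf : ∀ i, 0 < f i) :
    ∃ δ : ℝ, 0 < δ ∧ ∀ i, δ ≤ f i := by
  classical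
  by_cases h : Nonempty ι
  · refine ⟨Finset.univ.inf' Finset.univ_nonempty f, ?_, fun i => Finset.inf'_le f (Finset.mem_univ i)⟩
    rw [Finset.lt_inf'_iff]
    exact fun i _ => hf i
  · exact ⟨1, one_pos, fun i => (h ⟨i⟩).elim⟩

/-- The total size of a pair at the infinite places. -/
def size848 (p : A0.G K × A0.G K) : ℝ :=
  ∑ u : InfinitePlace K, ∑ i : Fin 2, ∑ j : Fin 2,
    (‖infMat u p.1 i j‖ + ‖infMat u p.2 i j‖ + ‖infMat u p.1⁻¹ i j‖ + ‖infMat u p.2⁻¹ i j‖)

theorem continuous_size848 : Continuous (size848 (K := K)) := by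
  unfold size848
  refine continuous_finsetSum _ fun u _ => continuous_finsetSum _ fun i _ =>
    continuous_finsetSum _ fun j _ => ?_
  have c1 : Continuous fun p : A0.G K × A0.G K => infMat u p.1 i j :=
    (continuous_infMat848 u i j).comp continuous_fst
  have c2 : Continuous fun p : A0.G K × A0.G K => infMat u p.2 i j :=
    (continuous_infMat848 u i j).comp continuous_snd
  have c3 : Continuous fun p : A0.G K × A0.G K => infMat u p.1⁻¹ i j :=
    (continuous_infMat848 u i j).comp (continuous_inv.comp continuous_fst)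
  have c4 : Continuous fun p : A0.G K × A0.G K => infMat u p.2⁻¹ i j :=
    (continuous_infMat848 u i j).comp (continuous_inv.comp continuous_snd)
  exact ((c1.norm.add c2.norm).add c3.norm).add c4.norm

theorem entry_le_size848 (p : A0.G K × A0.G K) (u : InfinitePlace K) (i j : Fin 2) :
    ‖infMat u p.1 i j‖ + ‖infMat u p.2 i j‖ + ‖infMat u p.1⁻¹ i j‖ + ‖infMat u p.2⁻¹ i j‖
      ≤ size848 p := by
  unfold size848
  have hnn : ∀ (u : InfinitePlace K) (i j : Fin 2),
      0 ≤ ‖infMat u p.1 i j‖ + ‖infMat u p.2 i j‖ + ‖infMat u p.1⁻¹ i j‖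
        + ‖infMat u p.2⁻¹ i j‖ := fun u i j => by positivity
  have h1 := Finset.single_le_sum (f := fun j : Fin 2 =>
    ‖infMat u p.1 i j‖ + ‖infMat u p.2 i j‖ + ‖infMat u p.1⁻¹ i j‖ + ‖infMat u p.2⁻¹ i j‖)
    (fun j _ => hnn u i j) (Finset.mem_univ j)
  have h2 := Finset.single_le_sum (f := fun i : Fin 2 => ∑ j : Fin 2,
    (‖infMat u p.1 i j‖ + ‖infMat u p.2 i j‖ + ‖infMat u p.1⁻¹ i j‖ + ‖infMat u p.2⁻¹ i j‖))
    (fun i _ => Finset.sum_nonneg fun j _ => hnn u i j) (Finset.mem_univ i)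
  have h3 := Finset.single_le_sum (f := fun u : InfinitePlace K => ∑ i : Fin 2, ∑ j : Fin 2,
    (‖infMat u p.1 i j‖ + ‖infMat u p.2 i j‖ + ‖infMat u p.1⁻¹ i j‖ + ‖infMat u p.2⁻¹ i j‖))
    (fun u _ => Finset.sum_nonneg fun i _ => Finset.sum_nonneg fun j _ => hnn u i j)
    (Finset.mem_univ u)
  exact h1.trans (h2.trans h3)

/-- **A2.03.1.3.6** -/
theorem archBoundC848 : ArchBoundC := by
  intro hDict K _ _ L hgood C hC
  classical
  -- the bound of the entries on `C`
  obtain ⟨R, hR⟩ : ∃ R : ℝ, ∀ p ∈ C, size848 p ≤ R := by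
    obtain ⟨R, hR⟩ := hC.bddAbove_image (continuous_size848 (K := K)).continuousOn
    exact ⟨R, fun p hp => hR ⟨p, hp, rfl⟩⟩
  -- the local constants
  have hdec := fun u : InfinitePlace K => (hgood.cpx u).decay R
  choose A δ hδ hbound using hdec
  obtain ⟨δ₀, hδ₀, hδ₀le⟩ := exists_pos_le848 δ hδ
  refine ⟨∏ u : InfinitePlace K, max (A u) 0, δ₀,
    Finset.prod_nonneg fun u _ => le_max_right _ _, hδ₀, ?_⟩
  intro p hp hadm ξ
  have hloc := (hDict K L p.1 p.2 hadm).2
  have hentries : ∀ (u : InfinitePlace K) (i j : Fin 2),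
      ‖infMat u p.1 i j‖ ≤ R ∧ ‖infMat u p.2 i j‖ ≤ R ∧ ‖(infMat u p.1)⁻¹ i j‖ ≤ R ∧
        ‖(infMat u p.2)⁻¹ i j‖ ≤ R := by
    intro u i j
    have h := (entry_le_size848 p u i j).trans (hR p hp)
    rw [infMat_inv848, infMat_inv848]
    have n1 := norm_nonneg (infMat u p.1 i j)
    have n2 := norm_nonneg (infMat u p.2 i j)
    have n3 := norm_nonneg (infMat u p.1⁻¹ i j)
    have n4 := norm_nonneg (infMat u p.2⁻¹ i j)
    refine ⟨by linarith, by linarith, by linarith, by linarith⟩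
  -- the local bounds
  have hu : ∀ u : InfinitePlace K,
      ‖L.Finf u (infMat u p.1) (infMat u p.2) (infVec u ξ)‖
        ≤ max (A u) 0 * Real.exp (-δ u * (‖ξ.1.1 u‖ ^ 2 + ‖ξ.2.1 u‖ ^ 2)) := by
    intro u
    have h := hbound u (infMat u p.1) (infMat u p.2) (hloc u) (hentries u) (infVec u ξ)
    refine h.trans ?_
    exact mul_le_mul_of_nonneg_right (le_max_left _ _) (Real.exp_pos _).le
  unfold archPart archSq
  rw [norm_prod]
  calc ∏ u : InfinitePlace K, ‖L.Finf u (infMat u p.1) (infMat u p.2) (infVec u ξ)‖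
      ≤ ∏ u : InfinitePlace K,
          (max (A u) 0 * Real.exp (-δ u * (‖ξ.1.1 u‖ ^ 2 + ‖ξ.2.1 u‖ ^ 2))) :=
        Finset.prod_le_prod (fun u _ => norm_nonneg _) fun u _ => hu u
    _ = (∏ u : InfinitePlace K, max (A u) 0)
          * Real.exp (∑ u : InfinitePlace K, -δ u * (‖ξ.1.1 u‖ ^ 2 + ‖ξ.2.1 u‖ ^ 2)) := by
        rw [Finset.prod_mul_distrib, Real.exp_sum]
    _ ≤ (∏ u : InfinitePlace K, max (A u) 0)
          * Real.exp (-δ₀ * ∑ w : InfinitePlace K, (‖ξ.1.1 w‖ ^ 2 + ‖ξ.2.1 w‖ ^ 2)) := by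
        refine mul_le_mul_of_nonneg_left ?_ (Finset.prod_nonneg fun u _ => le_max_right _ _)
        apply Real.exp_le_exp.mpr
        rw [Finset.mul_sum]
        refine Finset.sum_le_sum fun u _ => ?_
        have hs : 0 ≤ ‖ξ.1.1 u‖ ^ 2 + ‖ξ.2.1 u‖ ^ 2 := by positivity
        have := mul_le_mul_of_nonneg_right (hδ₀le u) hs
        linarith

example : ArchBoundC := archBoundC848

end Fermat.Agent.LT.A2.H848

end
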